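import Mathlib

/-!
# E' / Desc / Dev / Basic : subgroups of prime index (seat DESC-DEV, helper90)

`F ≤ F'` subgroups of an abelian group `W` with `F.relIndex F' = l` prime.

* `pi_nsmul_mem` : `l • w ∈ F` for `w ∈ F'`;
* `pi_exists_coord` : for `w ∈ F' ∖ F` every `x ∈ F'` is `≡ k • w` modulo `F`, `k < l`;
* `pi_zsmul_mem_iff`, `pi_nsmul_mem_iff` : `k • w ∈ F ↔ l ∣ k`;
* `pi_card_inf` : `#(F' ⊓ K) = l * #(F ⊓ K)` if `F' ⊓ K ⊄ F`;
* `pi_card` : `#F' = l * #F`;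
* `pi_exists_not_mem` : `F' ⊄ F`.
-/

set_option autoImplicit false
set_option linter.unusedSectionVars false
set_option linter.style.haveILetI false

namespace Fermat.Agent.EDesc

variable {W : Type*} [AddCommGroup W] {F F' : AddSubgroup W} {l : ℕ}

/-- `l • w ∈ F` for `w ∈ F'`. -/
theorem pi_nsmul_mem (hidx : F.relIndex F' = l) {w : W} (hw : w ∈ F') : l • w ∈ F := by
  have h1 : (Nat.card (↥F' ⧸ F.addSubgroupOf F')) • (QuotientAddGroup.mk (⟨w, hw⟩ : ↥F') :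
      ↥F' ⧸ F.addSubgroupOf F') = 0 := card_nsmul_eq_zero'
  have h2 : Nat.card (↥F' ⧸ F.addSubgroupOf F') = l := hidx
  rw [h2, ← QuotientAddGroup.mk_nsmul, QuotientAddGroup.eq_zero_iff] at h1
  exact h1

/-- `k • w ∈ F ↔ l ∣ k` for `w ∈ F' ∖ F`. -/
theorem pi_zsmul_mem_iff (hl : l.Prime) (hidx : F.relIndex F' = l) {w : W} (hw : w ∈ F')
    (hwF : w ∉ F) (z : ℤ) : z • w ∈ F ↔ (l : ℤ) ∣ z := by
  constructor
  · intro hz
    by_contra hndvd
    have hcop : IsCoprime z (l : ℤ) := by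
      rw [isCoprime_comm]
      exact (Nat.prime_iff_prime_int.1 hl).coprime_iff_not_dvd.2 hndvd
    obtain ⟨a, b, hab⟩ := hcop
    apply hwF
    have h1 : w = a • (z • w) + b • ((l : ℤ) • w) := by
      rw [← mul_smul, ← mul_smul, ← add_smul, hab, one_smul]
    rw [h1]
    refine F.add_mem (F.zsmul_mem hz a) (F.zsmul_mem ?_ b)
    rw [natCast_zsmul]
    exact pi_nsmul_mem hidx hw
  · rintro ⟨t, rfl⟩
    rw [mul_comm, mul_smul, natCast_zsmul]
    exact F.zsmul_mem (pi_nsmul_mem hidx hw) t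

theorem pi_nsmul_mem_iff (hl : l.Prime) (hidx : F.relIndex F' = l) {w : W} (hw : w ∈ F')
    (hwF : w ∉ F) (k : ℕ) : k • w ∈ F ↔ l ∣ k := by
  rw [← natCast_zsmul, pi_zsmul_mem_iff hl hidx hw hwF, Int.natCast_dvd_natCast]

/-- For `w ∈ F' ∖ F` every `x ∈ F'` is `≡ k • w` modulo `F` with `k < l`. -/
theorem pi_exists_coord (hl : l.Prime) (hidx : F.relIndex F' = l) {w : W} (hw : w ∈ F')
    (hwF : w ∉ F) {x : W} (hx : x ∈ F') : ∃ k : ℕ, k < l ∧ x - k • w ∈ F := by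
  haveI : Fact l.Prime := ⟨hl⟩
  have hcard : Nat.card (↥F' ⧸ F.addSubgroupOf F') = l := hidx
  have hne : (QuotientAddGroup.mk (⟨w, hw⟩ : ↥F') : ↥F' ⧸ F.addSubgroupOf F') ≠ 0 := by
    intro h
    rw [QuotientAddGroup.eq_zero_iff] at h
    exact hwF h
  have hmem : (QuotientAddGroup.mk (⟨x, hx⟩ : ↥F') : ↥F' ⧸ F.addSubgroupOf F') ∈
      AddSubgroup.zmultiples
        (QuotientAddGroup.mk (⟨w, hw⟩ : ↥F') : ↥F' ⧸ F.addSubgroupOf F') :=
    mem_zmultiples_of_prime_card (p := l) hcard hne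
  obtain ⟨z, hz⟩ := AddSubgroup.mem_zmultiples_iff.1 hmem
  have h1 : (QuotientAddGroup.mk ((⟨x, hx⟩ : ↥F') - z • ⟨w, hw⟩) :
      ↥F' ⧸ F.addSubgroupOf F') = 0 := by
    rw [QuotientAddGroup.mk_sub, QuotientAddGroup.mk_zsmul, hz, sub_self]
  rw [QuotientAddGroup.eq_zero_iff] at h1
  have h2 : x - z • w ∈ F := h1
  have hlpos : (0 : ℤ) < l := by exact_mod_cast hl.pos
  refine ⟨(z % l).toNat, ?_, ?_⟩
  · have := Int.emod_lt_of_pos z hlpos
    have h0 := Int.emod_nonneg z hlpos.ne'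
    omega
  · have h0 := Int.emod_nonneg z hlpos.ne'
    have e1 : (((z % l).toNat : ℕ) : ℤ) = z % l := Int.toNat_of_nonneg h0
    have e2 : x - (z % l).toNat • w = (x - z • w) + ((l : ℤ) * (z / l)) • w := by
      rw [← natCast_zsmul, e1]
      have : z % l = z - l * (z / l) := by
        have := Int.emod_add_mul_ediv z l
        linarith
      rw [this, sub_smul]
      abel
    rw [e2]
    refine F.add_mem h2 ?_
    rw [pi_zsmul_mem_iff hl hidx hw hwF]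
    exact Dvd.intro _ rfl

/-- `F' ⊄ F`. -/
theorem pi_exists_not_mem (hl : l.Prime) (hidx : F.relIndex F' = l) : ∃ w ∈ F', w ∉ F := by
  by_contra hcon
  have hcon' : F' ≤ F := fun w hw => by
    by_contra hwF
    exact hcon ⟨w, hw, hwF⟩
  have h1 : F.relIndex F' = 1 := AddSubgroup.relIndex_eq_one.2 hcon'
  rw [hidx] at h1
  exact hl.one_lt.ne' h1

/-- `#(F' ⊓ K) = l * #(F ⊓ K)` if `F' ⊓ K ⊄ F`. -/
theorem pi_card_inf (hl : l.Prime) (hle : F ≤ F') (hidx : F.relIndex F' = l)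
    (K : AddSubgroup W) {w : W} (hw : w ∈ F') (hwK : w ∈ K) (hwF : w ∉ F) :
    Nat.card ↥(F' ⊓ K) = l * Nat.card ↥(F ⊓ K) := by
  have hkw : ∀ k : ℕ, k • w ∈ F' ⊓ K := fun k =>
    ⟨F'.nsmul_mem hw k, K.nsmul_mem hwK k⟩
  let f : ↥(F ⊓ K) × Fin l → ↥(F' ⊓ K) := fun x =>
    ⟨(x.1 : W) + (x.2 : ℕ) • w,
      (F' ⊓ K).add_mem ⟨hle x.1.2.1, x.1.2.2⟩ (hkw x.2)⟩
  have hinj : Function.Injective f := by
    rintro ⟨h, k⟩ ⟨h', k'⟩ hff
    have h1 : (h : W) + (k : ℕ) • w = (h' : W) + (k' : ℕ) • w := congrArg Subtype.val hff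
    have h2 : (((k : ℕ) : ℤ) - ((k' : ℕ) : ℤ)) • w = (h' : W) - (h : W) := by
      rw [sub_smul, natCast_zsmul, natCast_zsmul]
      have h1' : (k : ℕ) • w = (h' : W) + (k' : ℕ) • w - (h : W) := by
        rw [← h1]; abel
      rw [h1']
      abel
    have h3 : (((k : ℕ) : ℤ) - ((k' : ℕ) : ℤ)) • w ∈ F := by
      rw [h2]
      exact F.sub_mem h'.2.1 h.2.1
    rw [pi_zsmul_mem_iff hl hidx hw hwF] at h3
    have hk : (k : ℕ) = (k' : ℕ) := by
      obtain ⟨t, ht⟩ := h3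
      have hk1 := k.2
      have hk2 := k'.2
      have : t = 0 := by
        by_contra ht0
        have : (1 : ℤ) ≤ |t| := Int.one_le_abs ht0
        have h4 : |((k : ℕ) : ℤ) - ((k' : ℕ) : ℤ)| = (l : ℤ) * |t| := by
          rw [ht, abs_mul, Nat.abs_cast]
        have h5 : |((k : ℕ) : ℤ) - ((k' : ℕ) : ℤ)| < (l : ℤ) := by
          rw [abs_lt]
          constructor <;> omega
        nlinarith
      rw [this, mul_zero] at ht
      omega
    have hk' : k = k' := Fin.ext hk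
    subst hk'
    have h4 : (h : W) = (h' : W) := add_right_cancel h1
    rw [Prod.mk.injEq]
    exact ⟨Subtype.ext h4, rfl⟩
  have hsurj : Function.Surjective f := by
    rintro ⟨x, hx, hxK⟩
    obtain ⟨k, hk, hkx⟩ := pi_exists_coord hl hidx hw hwF hx
    refine ⟨(⟨x - k • w, hkx, K.sub_mem hxK (K.nsmul_mem hwK k)⟩, ⟨k, hk⟩), ?_⟩
    apply Subtype.ext
    show x - k • w + k • w = x
    abel
  have hcard := Nat.card_congr (Equiv.ofBijective f ⟨hinj, hsurj⟩)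
  rw [← hcard, Nat.card_prod, Nat.card_fin, mul_comm]

/-- `#F' = l * #F`. -/
theorem pi_card (hl : l.Prime) (hle : F ≤ F') (hidx : F.relIndex F' = l) :
    Nat.card ↥F' = l * Nat.card ↥F := by
  obtain ⟨w, hw, hwF⟩ := pi_exists_not_mem hl hidx
  have h := pi_card_inf hl hle hidx ⊤ hw (AddSubgroup.mem_top w) hwF
  rwa [inf_top_eq, inf_top_eq] at h

/-- Monotonicity of the cardinality of an intersection. -/
theorem pi_card_inf_le [Finite W] (hle : F ≤ F') (K : AddSubgroup W) :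
    Nat.card ↥(F ⊓ K) ≤ Nat.card ↥(F' ⊓ K) :=
  Nat.card_le_card_of_injective (AddSubgroup.inclusion (inf_le_inf_right K hle))
    (AddSubgroup.inclusion_injective _)

end Fermat.Agent.EDesc
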