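import Fermat.Agent.E.Desc.Dev.Main
import Fermat.Agent.E.Desc.PCSMain

/-!
# E' / Desc / Dev / Final : `DevStatement`, unconditionally (seat DESC-DEV, helper90)

The dévissage (`devStatement_of_pcs`, `Dev/Main.lean`) with the two PCS facts of helper39
(`pcsEt_holds`, `pcsMu_holds`, `E/Desc/PCSMain.lean`) plugged in.
-/

set_option autoImplicit false

namespace Fermat.Agent.EDesc

/-- **DESC-DEV: the inequality `h¹ - h⁰ ≤ δ - α`** (Mazur, Prop. I.1.7, Galois form). -/
theorem devStatement : DevStatement :=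
  devStatement_of_pcs
    (fun p l' Ap Al _ _ _ hAp hAl => pcsEt_holds p l' Ap Al hAp hAl)
    (fun p l' Ap Al hp hl _ hAp hAl => pcsMu_holds p l' hp hl Ap Al hAp hAl)

end Fermat.Agent.EDesc
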