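import Fermat.Agent.E.Desc.Dev.Iface

/-!
# E' / Desc / Dev / Mu : counting Kummer cocycles (seat DESC-DEV, helper90)

Consequences of `PcsMu` (a Kummer cocycle is `σ ↦ σ ζ / ζ` with `ζ ^ (2 l') = 1`):

* `kum_exists_label` : the Kummer cocycles can be labelled by `Fin l'` injectively
  (there are at most `l'` of them);
* `kum_exists_root_of_odd` : for odd `l'` a Kummer cocycle is the coboundary of an `l'`-th root
  of unity;
* `fiber_card_bound` : the counting lemma for labelled families.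
-/

set_option autoImplicit false
set_option linter.unusedSectionVars false
set_option linter.style.haveILetI false

noncomputable section

namespace Fermat.Agent.EDesc

local notation "Qb" => AlgebraicClosure ℚ
local notation "GQb" => (AlgebraicClosure ℚ ≃ₐ[ℚ] AlgebraicClosure ℚ)

/-- an element with square `1` is fixed by Galois. -/
theorem kum_fixed_of_sq {ε : Qb} (h : ε ^ 2 = 1) (σ : GQb) : σ ε = ε := by
  rcases sq_eq_one_iff.1 h with h1 | h1
  · rw [h1, map_one]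
  · rw [h1, map_neg, map_one]

/-- there is a primitive `2 l'`-th root of unity `ω`, and every Kummer cocycle is the
coboundary of `ω ^ t` for some `t < l'`. -/
theorem kum_exists_exp {p l' : ℕ} (hl : l'.Prime) {Ap Al : ValuationSubring Qb}
    (hMu : PcsMu p l' Ap Al) :
    ∃ ω : Qb, ω ≠ 0 ∧ ∀ κ : GQb → Qb, IsKum p l' Ap Al κ →
      ∃ t : ℕ, t < l' ∧ ∀ σ : GQb, κ σ * ω ^ t = σ (ω ^ t) := by
  have hne : (2 * l' : ℕ) ≠ 0 := Nat.mul_ne_zero two_ne_zero hl.ne_zero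
  haveI : NeZero (2 * l' : ℕ) := ⟨hne⟩
  haveI : NeZero ((2 * l' : ℕ) : ℚ) := ⟨by exact_mod_cast hne⟩
  obtain ⟨ω, hω⟩ := HasEnoughRootsOfUnity.exists_primitiveRoot Qb (2 * l')
  have hω0 : ω ≠ 0 := hω.ne_zero hne
  refine ⟨ω, hω0, fun κ hκ => ?_⟩
  obtain ⟨ζ, hζ, hκζ⟩ := hMu κ hκ
  obtain ⟨m, -, hm⟩ := hω.eq_pow_of_pow_eq_one hζ
  have hε2 : (ω ^ l') ^ 2 = 1 := by
    rw [← pow_mul, mul_comm]; exact hω.pow_eq_one
  have hεfix : ∀ (q : ℕ) (σ : GQb), σ ((ω ^ l') ^ q) = (ω ^ l') ^ q := fun q σ => by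
    rw [map_pow, kum_fixed_of_sq hε2 σ]
  refine ⟨m % l', Nat.mod_lt _ hl.pos, fun σ => ?_⟩
  have hdec : ζ = (ω ^ l') ^ (m / l') * ω ^ (m % l') := by
    rw [← hm, ← pow_mul, ← pow_add, Nat.div_add_mod]
  have h1 := hκζ σ
  rw [hdec, map_mul, hεfix] at h1
  have hε0 : (ω ^ l') ^ (m / l') ≠ 0 := pow_ne_zero _ (pow_ne_zero _ hω0)
  apply mul_left_cancel₀ hε0
  rw [← h1]
  ring

/-- **there are at most `l'` Kummer cocycles**: they are labelled injectively by `Fin l'`. -/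
theorem kum_exists_label {p l' : ℕ} (hl : l'.Prime) {Ap Al : ValuationSubring Qb}
    (hMu : PcsMu p l' Ap Al) :
    ∃ lab : (GQb → Qb) → Fin l', ∀ κ κ' : GQb → Qb, IsKum p l' Ap Al κ →
      IsKum p l' Ap Al κ' → lab κ = lab κ' → κ = κ' := by
  classical
  obtain ⟨ω, hω0, hω⟩ := kum_exists_exp hl hMu
  refine ⟨fun κ => if h : IsKum p l' Ap Al κ then ⟨(hω κ h).choose, (hω κ h).choose_spec.1⟩
    else ⟨0, hl.pos⟩, fun κ κ' hκ hκ' hlab => ?_⟩
  simp only [dif_pos hκ, dif_pos hκ'] at hlab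
  have ht : (hω κ hκ).choose = (hω κ' hκ').choose := congrArg Fin.val hlab
  have h1 := (hω κ hκ).choose_spec.2
  have h2 := (hω κ' hκ').choose_spec.2
  rw [← ht] at h2
  funext σ
  have h0 : ω ^ (hω κ hκ).choose ≠ 0 := pow_ne_zero _ hω0
  apply mul_right_cancel₀ h0
  rw [h1 σ, h2 σ]

/-- for odd `l'` a Kummer cocycle is the coboundary of an `l'`-th root of unity. -/
theorem kum_exists_root_of_odd {p l' : ℕ} (hodd : Odd l') {Ap Al : ValuationSubring Qb}
    (hMu : PcsMu p l' Ap Al) {κ : GQb → Qb} (hκ : IsKum p l' Ap Al κ) :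
    ∃ ξ : Qb, ξ ^ l' = 1 ∧ ∀ σ : GQb, κ σ * ξ = σ ξ := by
  obtain ⟨ζ, hζ, hκζ⟩ := hMu κ hκ
  have hε2 : (ζ ^ l') ^ 2 = 1 := by
    rw [← pow_mul, mul_comm]; exact hζ
  obtain ⟨k, hk⟩ := hodd
  refine ⟨ζ ^ l' * ζ, ?_, fun σ => ?_⟩
  · rw [mul_pow, ← pow_succ]
    have : l' + 1 = 2 * (k + 1) := by omega
    rw [this, pow_mul, hε2, one_pow]
  · rw [map_mul, kum_fixed_of_sq hε2 σ, ← hκζ σ]
    ring

/-- The counting lemma for labelled families. -/
theorem fiber_card_bound {J T : Type*} [Finite J] [Fintype T] (lab : J → T) (x y : ℕ)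
    (h : ∀ t : T, Nat.card {j : J // lab j = t} * x ≤ y) :
    Nat.card J * x ≤ Fintype.card T * y := by
  have h1 : Nat.card J = ∑ t : T, Nat.card {j : J // lab j = t} := by
    rw [← Nat.card_sigma]
    exact Nat.card_congr (Equiv.sigmaFiberEquiv lab).symm
  rw [h1, Finset.sum_mul]
  calc ∑ t : T, Nat.card {j : J // lab j = t} * x ≤ ∑ _t : T, y :=
        Finset.sum_le_sum fun t _ => h t
    _ = Fintype.card T * y := by
        rw [Finset.sum_const, Finset.card_univ, smul_eq_mul]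

end Fermat.Agent.EDesc
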