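import Fermat.Agent.E.Desc.Dev.Sel
import Fermat.Agent.E.Desc.Dev.Mu

/-!
# E' / Desc / Dev / StepMu : the step of the dévissage over a piece of type `mu`
(seat DESC-DEV, helper90)

`F ≤ F'` of index `l'` with `F' / F ≅ μ_{l'}` through the coordinate `ι`.  A Selmer cocycle `c`
with values in `F'` gives the Kummer cocycle `ι ∘ c`; by `PcsMu` there are at most `l'` of
them, and they are coboundaries of `l'`-th roots of unity if `l'` is odd.  Hence
`Bound F a → Bound F' a`.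
-/

set_option autoImplicit false
set_option linter.unusedSectionVars false
set_option linter.style.haveILetI false

noncomputable section

namespace Fermat.Agent.EDesc

local notation "Qb" => AlgebraicClosure ℚ
local notation "GQb" => (AlgebraicClosure ℚ ≃ₐ[ℚ] AlgebraicClosure ℚ)

variable {W : Type*} [AddCommGroup W] [DistribMulAction GQb W]

/-- the data of a piece of type `mu`. -/
structure MuPiece (F F' : AddSubgroup W) (ι : W → Qb) : Prop where
  le : F ≤ F'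
  stab : ∀ (σ : GQb) (w : W), w ∈ F' → σ • w ∈ F'
  ι_mul : ∀ w w' : W, w ∈ F' → w' ∈ F' → ι (w + w') = ι w * ι w'
  ι_one_iff : ∀ w : W, w ∈ F' → (ι w = 1 ↔ w ∈ F)
  ι_smul : ∀ (σ : GQb) (w : W), w ∈ F' → ι (σ • w) = σ (ι w)

namespace MuPiece

variable {F F' : AddSubgroup W} {ι : W → Qb} (P : MuPiece F F' ι)
include P

theorem ι_zero : ι 0 = 1 := (P.ι_one_iff 0 F'.zero_mem).2 F.zero_mem

theorem ι_mul_neg {w : W} (hw : w ∈ F') : ι w * ι (-w) = 1 := by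
  rw [← P.ι_mul w (-w) hw (F'.neg_mem hw), add_neg_cancel, P.ι_zero]

theorem ι_ne_zero {w : W} (hw : w ∈ F') : ι w ≠ 0 :=
  left_ne_zero_of_mul_eq_one (P.ι_mul_neg hw)

theorem ι_nsmul {w : W} (hw : w ∈ F') (k : ℕ) : ι (k • w) = ι w ^ k := by
  induction k with
  | zero => rw [zero_smul, pow_zero, P.ι_zero]
  | succ k ih => rw [succ_nsmul, P.ι_mul _ _ (F'.nsmul_mem hw k) hw, ih, pow_succ]

theorem sub_mem_of_ι_eq {w w' : W} (hw : w ∈ F') (hw' : w' ∈ F') (h : ι w = ι w') :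
    w - w' ∈ F := by
  rw [← P.ι_one_iff _ (F'.sub_mem hw hw')]
  have h1 : ι (w - w') * ι w' = ι w := by
    rw [← P.ι_mul _ _ (F'.sub_mem hw hw') hw', sub_add_cancel]
  have h2 : ι (w - w') * ι w' = 1 * ι w' := by rw [h1, h, one_mul]
  exact mul_right_cancel₀ (P.ι_ne_zero hw') h2

theorem dcob_mem {w : W} (hw : w ∈ F') (σ : GQb) : dcob w σ ∈ F' :=
  F'.sub_mem (P.stab σ w hw) hw

theorem ι_dcob_mul {w : W} (hw : w ∈ F') (σ : GQb) : ι (dcob w σ) * ι w = σ (ι w) := by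
  rw [← P.ι_mul _ _ (P.dcob_mem hw σ) hw, dcob_apply, sub_add_cancel, P.ι_smul σ w hw]

theorem ι_pow_eq_one {l : ℕ} (hidx : F.relIndex F' = l) {w : W} (hw : w ∈ F') :
    ι w ^ l = 1 := by
  rw [← P.ι_nsmul hw, P.ι_one_iff _ (F'.nsmul_mem hw l)]
  exact pi_nsmul_mem hidx hw

/-- every `l`-th root of unity is `ι (k • w₀)`. -/
theorem exists_nsmul_of_pow_eq_one {l : ℕ} (hl : l.Prime) (hidx : F.relIndex F' = l) {w₀ : W}
    (hw₀ : w₀ ∈ F') (hw₀F : w₀ ∉ F) {ξ : Qb} (hξ : ξ ^ l = 1) : ∃ k : ℕ, ι (k • w₀) = ξ := by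
  haveI : Fact l.Prime := ⟨hl⟩
  haveI : NeZero l := ⟨hl.ne_zero⟩
  have h1 : ι w₀ ^ l = 1 := P.ι_pow_eq_one hidx hw₀
  have h2 : ι w₀ ≠ 1 := fun h => hw₀F ((P.ι_one_iff w₀ hw₀).1 h)
  have h3 : IsPrimitiveRoot (ι w₀) l := by
    have := IsPrimitiveRoot.orderOf (ι w₀)
    rwa [orderOf_eq_prime h1 h2] at this
  obtain ⟨k, -, hk⟩ := h3.eq_pow_of_pow_eq_one hξ
  exact ⟨k, by rw [P.ι_nsmul hw₀, hk]⟩

end MuPiece

namespace DevCtx

variable {X : DevCtx W}

/-- the Kummer cocycle of a Selmer cocycle with values in `F'`. -/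
theorem isKum_of_sel {F F' : AddSubgroup W} {ι : W → Qb} (P : MuPiece F F' ι)
    (hidx : F.relIndex F' = X.l)
    (hflat : ∀ c : GQb → W, IsCoc c → X.Flat c → (∀ σ, c σ ∈ F') →
      ∃ a : Qb, a ∈ X.Al ∧ a⁻¹ ∈ X.Al ∧ a ≠ 0 ∧
        ∀ σ ∈ X.Al.decompositionSubgroup ℚ, ι (c σ) * a = σ a)
    {c : GQb → W} (hc : X.Sel F' c) : IsKum X.p X.l X.Ap X.Al (fun σ => ι (c σ)) where
  pow σ := P.ι_pow_eq_one hidx (hc.mem σ)
  coc σ τ := by
    show ι (c (σ * τ)) = ι (c σ) * σ (ι (c τ))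
    rw [hc.coc σ τ, P.ι_mul _ _ (hc.mem σ) (P.stab σ _ (hc.mem τ)), P.ι_smul σ _ (hc.mem τ)]
  cts := by
    obtain ⟨E, hE, h⟩ := hc.cts
    exact ⟨E, hE, fun σ τ hτ => by show ι (c (σ * τ)) = ι (c σ); rw [h σ τ hτ]⟩
  unram r hr hrS A hA σ hσ := by
    show ι (c σ) = 1
    rw [hc.unr r hr hrS A hA σ hσ, P.ι_zero]
  unram_p σ hσ := by
    show ι (c σ) = 1
    rw [hc.zero_p σ hσ, P.ι_zero]
  unit := hflat c hc.coc hc.flat hc.mem

/-- counting over the fibres of a labelling, after translation by a member of the fibre. -/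
theorem fiber_translate {F F' : AddSubgroup W} {x y : ℕ}
    (hb : ∀ (J' : Type) [Finite J'] (c' : J' → GQb → W), (∀ j, X.Sel F (c' j)) →
      (∀ j j', j ≠ j' → ¬ CohomIn F' (c' j) (c' j')) → Nat.card J' * x ≤ y)
    (J : Type) [Finite J] (c : J → GQb → W) (hc : ∀ j, X.Sel F' (c j))
    (hne : ∀ j j', j ≠ j' → ¬ CohomIn F' (c j) (c j'))
    (lab : J → Fin X.l) (hlab : ∀ j j', lab j = lab j' → ∀ σ, c j σ - c j' σ ∈ F) :
    Nat.card J * x ≤ X.l * y := by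
  have h := fiber_card_bound lab x y (fun t => ?_)
  · rwa [Fintype.card_fin] at h
  · by_cases hne0 : Nonempty {j : J // lab j = t}
    · obtain ⟨⟨j₀, hj₀⟩⟩ := hne0
      refine hb {j : J // lab j = t} (fun j => c j.1 - c j₀) (fun j => ?_) (fun j j' hjj h => ?_)
      · exact ((hc j.1).sub (hc j₀)).of_mem (fun σ => hlab j.1 j₀ (j.2.trans hj₀.symm) σ)
      · obtain ⟨w, hw, h1⟩ := h
        refine hne j.1 j'.1 (fun h2 => hjj (Subtype.ext h2)) ⟨w, hw, fun σ => ?_⟩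
        rw [← h1 σ]
        simp only [Pi.sub_apply]
        abel
    · haveI : IsEmpty {j : J // lab j = t} := not_nonempty_iff.1 hne0
      rw [Nat.card_of_isEmpty, zero_mul]
      exact Nat.zero_le _

/-- **the `mu` step**. -/
theorem bound_step_mu [Finite W] (hMu : PcsMu X.p X.l X.Ap X.Al) {F F' : AddSubgroup W}
    {ι : W → Qb} (P : MuPiece F F' ι) (hidx : F.relIndex F' = X.l)
    (hflat : ∀ c : GQb → W, IsCoc c → X.Flat c → (∀ σ, c σ ∈ F') →
      ∃ a : Qb, a ∈ X.Al ∧ a⁻¹ ∈ X.Al ∧ a ≠ 0 ∧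
        ∀ σ ∈ X.Al.decompositionSubgroup ℚ, ι (c σ) * a = σ a)
    {a : ℕ} (hB : X.Bound F a) : X.Bound F' a := by
  intro J _ c hc hne
  have hle := P.le
  have hkum : ∀ j, IsKum X.p X.l X.Ap X.Al (fun σ => ι (c j σ)) := fun j =>
    isKum_of_sel P hidx hflat (hc j)
  obtain ⟨lab0, hlab0⟩ := kum_exists_label X.hl hMu
  have hlab : ∀ j j', lab0 (fun σ => ι (c j σ)) = lab0 (fun σ => ι (c j' σ)) →
      ∀ σ, c j σ - c j' σ ∈ F := fun j j' h σ =>
    P.sub_mem_of_ι_eq ((hc j).mem σ) ((hc j').mem σ)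
      (congrFun (hlab0 _ _ (hkum j) (hkum j') h) σ)
  have hN : Nat.card ↥F' = X.l * Nat.card ↥F := pi_card X.hl hle hidx
  by_cases hE : ∃ w₀, w₀ ∈ F' ∧ w₀ ∈ X.WI ∧ w₀ ∉ F
  · obtain ⟨w₀, hw₀, hw₀I, hw₀F⟩ := hE
    have hA : Nat.card ↥(F' ⊓ X.WI) = X.l * Nat.card ↥(F ⊓ X.WI) :=
      pi_card_inf X.hl hle hidx X.WI hw₀ hw₀I hw₀F
    rw [hA, hN]
    rcases X.hl.eq_two_or_odd' with h2 | hodd
    · -- `l' = 2`: the root of unity `ι w₀ = -1` is rational
      have hsq : ι w₀ ^ 2 = 1 := by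
        have := P.ι_pow_eq_one hidx hw₀
        rwa [h2] at this
      have htriv : ∀ σ : GQb, σ • w₀ - w₀ ∈ F := fun σ =>
        P.sub_mem_of_ι_eq (P.stab σ w₀ hw₀) hw₀
          (by rw [P.ι_smul σ w₀ hw₀, kum_fixed_of_sq hsq σ])
      have hb : ∀ (J' : Type) [Finite J'] (c' : J' → GQb → W), (∀ j, X.Sel F (c' j)) →
          (∀ j j', j ≠ j' → ¬ CohomIn F' (c' j) (c' j')) →
          Nat.card J' * (X.l * X.l ^ a * Nat.card ↥(F ⊓ X.WI)) ≤
            Nat.card ↥(F' ⊓ X.WG) * Nat.card ↥F := by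
        intro J' _ c' hc' hne'
        have := ext_l hle hidx hB hw₀ hw₀I hw₀F htriv J' c' hc' hne'
        calc Nat.card J' * (X.l * X.l ^ a * Nat.card ↥(F ⊓ X.WI))
            = Nat.card J' * X.l * X.l ^ a * Nat.card ↥(F ⊓ X.WI) := by ring
          _ ≤ _ := this
      have hfb := fiber_translate hb J c hc hne (fun j => lab0 (fun σ => ι (c j σ))) hlab
      calc Nat.card J * X.l ^ a * (X.l * Nat.card ↥(F ⊓ X.WI))
          = Nat.card J * (X.l * X.l ^ a * Nat.card ↥(F ⊓ X.WI)) := by ring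
        _ ≤ X.l * (Nat.card ↥(F' ⊓ X.WG) * Nat.card ↥F) := hfb
        _ = Nat.card ↥(F' ⊓ X.WG) * (X.l * Nat.card ↥F) := by ring
    · -- `l'` odd: every Kummer cocycle is the coboundary of some `ι (k • w₀)`
      have hex : ∀ j, ∃ k : ℕ, ∀ σ : GQb, ι (c j σ) * ι (k • w₀) = σ (ι (k • w₀)) := by
        intro j
        obtain ⟨ξ, hξ, hκ⟩ := kum_exists_root_of_odd hodd hMu (hkum j)
        obtain ⟨k, hk⟩ := P.exists_nsmul_of_pow_eq_one X.hl hidx hw₀ hw₀F hξ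
        exact ⟨k, fun σ => by rw [hk]; exact hκ σ⟩
      choose k hk using hex
      have hkF' : ∀ j, k j • w₀ ∈ F' := fun j => F'.nsmul_mem hw₀ _
      have hkI : ∀ j, k j • w₀ ∈ X.WI := fun j => X.WI.nsmul_mem hw₀I _
      have hval : ∀ j σ, c j σ - dcob (k j • w₀) σ ∈ F := by
        intro j σ
        refine P.sub_mem_of_ι_eq ((hc j).mem σ) (P.dcob_mem (hkF' j) σ) ?_
        apply mul_right_cancel₀ (P.ι_ne_zero (hkF' j))
        rw [hk j σ, P.ι_dcob_mul (hkF' j) σ]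
      have hc' : ∀ j, X.Sel F (c j - dcob (k j • w₀)) := fun j =>
        ((hc j).sub (sel_dcob (hkI j) (P.dcob_mem (hkF' j)))).of_mem (hval j)
      have hne' : ∀ j j', j ≠ j' →
          ¬ CohomIn F' (c j - dcob (k j • w₀)) (c j' - dcob (k j' • w₀)) := by
        rintro j j' hjj ⟨w, hw, h⟩
        refine hne j j' hjj ⟨w + (k j • w₀ - k j' • w₀),
          F'.add_mem hw (F'.sub_mem (hkF' j) (hkF' j')), fun σ => ?_⟩
        have h1 := h σ
        simp only [Pi.sub_apply, dcob_apply] at h1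
        have h2 : c j σ - c j' σ = (σ • w - w) + (σ • (k j • w₀) - k j • w₀)
            - (σ • (k j' • w₀) - k j' • w₀) := by
          rw [← h1]; abel
        rw [h2, smul_add, smul_sub]
        abel
      have h1 := ext_one hle hB J (fun j => c j - dcob (k j • w₀)) hc' hne'
      calc Nat.card J * X.l ^ a * (X.l * Nat.card ↥(F ⊓ X.WI))
          = X.l * (Nat.card J * X.l ^ a * Nat.card ↥(F ⊓ X.WI)) := by ring
        _ ≤ X.l * (Nat.card ↥(F' ⊓ X.WG) * Nat.card ↥F) := Nat.mul_le_mul_left _ h1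
        _ = Nat.card ↥(F' ⊓ X.WG) * (X.l * Nat.card ↥F) := by ring
  · have hEq : F' ⊓ X.WI = F ⊓ X.WI := by
      apply le_antisymm
      · intro w hw
        refine ⟨?_, hw.2⟩
        by_contra hwF
        exact hE ⟨w, hw.1, hw.2, hwF⟩
      · exact inf_le_inf_right _ hle
    rw [hEq, hN]
    have hb : ∀ (J' : Type) [Finite J'] (c' : J' → GQb → W), (∀ j, X.Sel F (c' j)) →
        (∀ j j', j ≠ j' → ¬ CohomIn F' (c' j) (c' j')) →
        Nat.card J' * (X.l ^ a * Nat.card ↥(F ⊓ X.WI)) ≤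
          Nat.card ↥(F' ⊓ X.WG) * Nat.card ↥F := by
      intro J' _ c' hc' hne'
      have := ext_one hle hB J' c' hc' hne'
      calc Nat.card J' * (X.l ^ a * Nat.card ↥(F ⊓ X.WI))
          = Nat.card J' * X.l ^ a * Nat.card ↥(F ⊓ X.WI) := by ring
        _ ≤ _ := this
    have hfb := fiber_translate hb J c hc hne (fun j => lab0 (fun σ => ι (c j σ))) hlab
    calc Nat.card J * X.l ^ a * Nat.card ↥(F ⊓ X.WI)
        = Nat.card J * (X.l ^ a * Nat.card ↥(F ⊓ X.WI)) := by ring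
      _ ≤ X.l * (Nat.card ↥(F' ⊓ X.WG) * Nat.card ↥F) := hfb
      _ = Nat.card ↥(F' ⊓ X.WG) * (X.l * Nat.card ↥F) := by ring

end DevCtx

end Fermat.Agent.EDesc
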