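import Fermat.Agent.E.Desc.Dev.StepEt
import Fermat.Agent.E.Desc.Dev.StepMu

/-!
# E' / Desc / Dev / Main : the inequality `h¹ - h⁰ ≤ δ - α` (seat DESC-DEV, helper90)

`devStatement_of_pcs : (∀ …, PcsEt p l' Ap Al) → (∀ …, PcsMu p l' Ap Al) → DevStatement`.

The two hypotheses are the class-field-theory-of-`ℚ` facts of seat DESC-PCS
(`Dev/Iface.lean`).  The proof is the dévissage along the typed chain:
`DevCtx.bound_bot`, `DevCtx.bound_step_et`, `DevCtx.bound_step_mu`.
-/

set_option autoImplicit false
set_option linter.unusedSectionVars false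
set_option linter.style.haveILetI false

noncomputable section

namespace Fermat.Agent.EDesc

local notation "Qb" => AlgebraicClosure ℚ
local notation "GQb" => (AlgebraicClosure ℚ ≃ₐ[ℚ] AlgebraicClosure ℚ)

section

variable {W : Type*} [AddCommGroup W] [DistribMulAction GQb W]

/-- the number of pieces of type `et` among the first `i`. -/
def TypedChain.alphaUpTo {l' : ℕ} (C : TypedChain W l') (i : ℕ) : ℕ :=
  open Classical in ((Finset.range i).filter C.et).card

theorem TypedChain.alphaUpTo_zero {l' : ℕ} (C : TypedChain W l') : C.alphaUpTo 0 = 0 := by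
  simp [TypedChain.alphaUpTo]

theorem TypedChain.alphaUpTo_succ_of_et {l' : ℕ} (C : TypedChain W l') {i : ℕ}
    (h : C.et i) : C.alphaUpTo (i + 1) = C.alphaUpTo i + 1 := by
  classical
  unfold TypedChain.alphaUpTo
  rw [Finset.range_add_one, Finset.filter_insert, if_pos h,
    Finset.card_insert_of_notMem (by simp)]

theorem TypedChain.alphaUpTo_succ_of_not_et {l' : ℕ} (C : TypedChain W l') {i : ℕ}
    (h : ¬ C.et i) : C.alphaUpTo (i + 1) = C.alphaUpTo i := by
  classical
  unfold TypedChain.alphaUpTo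
  rw [Finset.range_add_one, Finset.filter_insert, if_neg h]

theorem TypedChain.alphaUpTo_L {l' : ℕ} (C : TypedChain W l') : C.alphaUpTo C.L = C.alpha := rfl

/-- the ambient data of the dévissage attached to the data of `DevStatement`. -/
def devCtxOf (p l' : ℕ) (hl : l'.Prime) (hsm : SmoothMod W) (hun : UnramMod W {p, l'})
    (C : TypedChain W l') (Ap Al : ValuationSubring Qb) (Flat : (GQb → W) → Prop)
    (hFlat : FlatCond C Al Flat) : DevCtx W where
  p := p
  l := l'
  hl := hl
  Ap := Ap
  Al := Al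
  Flat := Flat
  smooth := hsm
  unram := hun
  flat_add := hFlat.add
  flat_neg := hFlat.neg
  flat_cob := hFlat.cob

/-- the bound along the chain. -/
theorem bound_chain [Finite W] (p l' : ℕ) (hl : l'.Prime) (hsm : SmoothMod W)
    (hun : UnramMod W {p, l'}) (C : TypedChain W l') (Ap Al : ValuationSubring Qb)
    (Flat : (GQb → W) → Prop) (hFlat : FlatCond C Al Flat)
    (hEt : PcsEt p l' Ap Al) (hMu : PcsMu p l' Ap Al) (i : ℕ) (hi : i ≤ C.L) :
    (devCtxOf p l' hl hsm hun C Ap Al Flat hFlat).Bound (C.F i) (C.alphaUpTo i) := by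
  induction i with
  | zero =>
    rw [C.F_zero, C.alphaUpTo_zero]
    exact DevCtx.bound_bot _
  | succ i ih =>
    have hiL : i < C.L := hi
    have ih' := ih hiL.le
    by_cases het : C.et i
    · rw [C.alphaUpTo_succ_of_et het]
      exact DevCtx.bound_step_et (X := devCtxOf p l' hl hsm hun C Ap Al Flat hFlat) hEt
        (C.mono i) (C.index i hiL) (C.et_triv i hiL het) (hFlat.et_unram i hiL het) ih'
    · rw [C.alphaUpTo_succ_of_not_et het]
      have P : MuPiece (C.F i) (C.F (i + 1)) (C.ι i) :=
        ⟨C.mono i, C.stable (i + 1), C.ι_mul i hiL het, C.ι_one_iff i hiL het,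
          C.ι_smul i hiL het⟩
      exact DevCtx.bound_step_mu (X := devCtxOf p l' hl hsm hun C Ap Al Flat hFlat) hMu P
        (C.index i hiL) (hFlat.mu_unit i hiL het) ih'

end

/-- **DESC-DEV**: the inequality `h¹ - h⁰ ≤ δ - α`, from the two PCS facts. -/
theorem devStatement_of_pcs
    (hEt : ∀ (p l' : ℕ) (Ap Al : ValuationSubring Qb), p.Prime → l'.Prime → p ≠ l' →
      Ap.LiesOverPrime p → Al.LiesOverPrime l' → PcsEt p l' Ap Al)
    (hMu : ∀ (p l' : ℕ) (Ap Al : ValuationSubring Qb), p.Prime → l'.Prime → p ≠ l' →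
      Ap.LiesOverPrime p → Al.LiesOverPrime l' → PcsMu p l' Ap Al) :
    DevStatement := by
  intro p l' hp hl hpl W _ _ _ hsm hun _ C Ap Al hAp hAl Flat hFlat n c hcoc hcts hunr hcob
    hflat hne
  have hB := bound_chain p l' hl hsm hun C Ap Al Flat hFlat
    (hEt p l' Ap Al hp hl hpl hAp hAl) (hMu p l' Ap Al hp hl hpl hAp hAl) C.L le_rfl
  rw [C.F_top, C.alphaUpTo_L] at hB
  choose b hb using hcob
  have hsel : ∀ i, (devCtxOf p l' hl hsm hun C Ap Al Flat hFlat).Sel ⊤
      (c i - dcob (b i)) := fun i =>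
    { coc := by
        rw [sub_eq_add_neg]
        exact (hcoc i).add (dcob_isCoc (b i)).neg
      cts := by
        rw [sub_eq_add_neg]
        exact (hcts i).add (dcob_isCtsCoc hsm (b i)).neg
      unr := by
        rw [sub_eq_add_neg]
        exact (hunr i).add (dcob_unramCoc hun (b i)).neg
      zero_p := fun σ hσ => by
        simp only [Pi.sub_apply, dcob_apply]
        rw [hb i σ hσ, sub_self]
      flat := by
        rw [sub_eq_add_neg]
        exact hFlat.add _ _ (hflat i) (hFlat.neg _ (hFlat.cob (b i)))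
      mem := fun σ => AddSubgroup.mem_top _ }
  have hne' : ∀ i j, i ≠ j → ¬ CohomIn (⊤ : AddSubgroup W) (c i - dcob (b i))
      (c j - dcob (b j)) := by
    rintro i j hij ⟨w, -, h⟩
    refine hne i j hij ⟨w + (b i - b j), fun σ => ?_⟩
    have h1 := h σ
    simp only [Pi.sub_apply, dcob_apply] at h1
    have h2 : c i σ - c j σ = (σ • w - w) + (σ • b i - b i) - (σ • b j - b j) := by
      rw [← h1]; abel
    rw [h2, smul_add, smul_sub]
    abel
  have h := hB (Fin n) (fun i => c i - dcob (b i)) hsel hne'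
  rw [Nat.card_fin, top_inf_eq, top_inf_eq, AddSubgroup.card_top] at h
  exact h

end Fermat.Agent.EDesc
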