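import Fermat.Agent.E.Desc.Dev.Basic
import Fermat.Agent.E.Desc.Dev.Iface

/-!
# E' / Desc / Dev / Sel : normalised Selmer cocycles and the bound to be propagated
(seat DESC-DEV, helper90)

* `DevCtx W` : the ambient data (primes, places, flat condition, smoothness of `W`);
* `DevCtx.Sel B c` : `c` is a Selmer cocycle with values in `B`, vanishing on `I_p`;
* `CohomIn B c c'` : `c - c'` is the coboundary of an element of `B`;
* `DevCtx.Bound B a` : every family of pairwise non-`B`-cohomologous `Sel B`-cocycles has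
  `#J * l'^a * #(B ∩ W^{I_p}) ≤ #(B ∩ W^Γ) * #B`;
* `bound_bot`, `ext_one`, `ext_l` : base case and the two extension lemmas.
-/

set_option autoImplicit false
set_option linter.unusedSectionVars false
set_option linter.style.haveILetI false

noncomputable section

namespace Fermat.Agent.EDesc

local notation "Qb" => AlgebraicClosure ℚ
local notation "GQb" => (AlgebraicClosure ℚ ≃ₐ[ℚ] AlgebraicClosure ℚ)

section

variable {W : Type*} [AddCommGroup W] [DistribMulAction GQb W]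

/-- the coboundary of `w`. -/
def dcob (w : W) : GQb → W := fun σ => σ • w - w

@[simp] theorem dcob_apply (w : W) (σ : GQb) : dcob w σ = σ • w - w := rfl

theorem dcob_isCoc (w : W) : IsCoc (dcob w) := by
  intro σ τ
  simp only [dcob_apply, mul_smul, smul_sub]
  abel

theorem dcob_nsmul (k : ℕ) (w : W) (σ : GQb) : dcob (k • w) σ = k • dcob w σ := by
  simp only [dcob_apply, smul_sub, smul_comm σ k w]

theorem dcob_add (w w' : W) (σ : GQb) : dcob (w + w') σ = dcob w σ + dcob w' σ := by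
  simp only [dcob_apply, smul_add]
  abel

theorem dcob_sub (w w' : W) (σ : GQb) : dcob (w - w') σ = dcob w σ - dcob w' σ := by
  simp only [dcob_apply, smul_sub]
  abel

theorem dcob_isCtsCoc (hs : SmoothMod W) (w : W) : IsCtsCoc (dcob w) := by
  obtain ⟨E, hE, h⟩ := hs
  refine ⟨E, hE, fun σ τ hτ => ?_⟩
  simp only [dcob_apply, mul_smul, h τ hτ w]

theorem IsCoc.add {c c' : GQb → W} (h : IsCoc c) (h' : IsCoc c') : IsCoc (c + c') := by
  intro σ τ
  simp only [Pi.add_apply, h σ τ, h' σ τ, smul_add]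
  abel

theorem IsCoc.neg {c : GQb → W} (h : IsCoc c) : IsCoc (-c) := by
  intro σ τ
  simp only [Pi.neg_apply, h σ τ, smul_neg]
  abel

theorem IsCoc.map_one {c : GQb → W} (h : IsCoc c) : c 1 = 0 := by
  have := h 1 1
  simp only [mul_one, one_smul] at this
  have h2 : c 1 + c 1 = c 1 + 0 := by rw [add_zero]; exact this.symm
  exact add_left_cancel h2

theorem IsCoc.map_inv {c : GQb → W} (h : IsCoc c) (σ : GQb) : c σ⁻¹ = -(σ⁻¹ • c σ) := by
  have h1 := h σ⁻¹ σ
  rw [inv_mul_cancel, h.map_one] at h1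
  exact eq_neg_of_add_eq_zero_left h1.symm

theorem IsCtsCoc.add {c c' : GQb → W} (h : IsCtsCoc c) (h' : IsCtsCoc c') :
    IsCtsCoc (c + c') := by
  obtain ⟨E, hE, hc⟩ := h
  obtain ⟨E', hE', hc'⟩ := h'
  haveI := hE
  haveI := hE'
  refine ⟨E ⊔ E', inferInstance, fun σ τ hτ => ?_⟩
  have h1 : τ ∈ E.fixingSubgroup :=
    (IntermediateField.fixingSubgroup_antitone (le_sup_left : E ≤ E ⊔ E')) hτ
  have h2 : τ ∈ E'.fixingSubgroup :=
    (IntermediateField.fixingSubgroup_antitone (le_sup_right : E' ≤ E ⊔ E')) hτ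
  simp only [Pi.add_apply, hc σ τ h1, hc' σ τ h2]

theorem IsCtsCoc.neg {c : GQb → W} (h : IsCtsCoc c) : IsCtsCoc (-c) := by
  obtain ⟨E, hE, hc⟩ := h
  exact ⟨E, hE, fun σ τ hτ => by simp only [Pi.neg_apply, hc σ τ hτ]⟩

theorem UnramCoc.add {S : Set ℕ} {c c' : GQb → W} (h : UnramCoc S c) (h' : UnramCoc S c') :
    UnramCoc S (c + c') := fun r hr hrS A hA σ hσ => by
  simp only [Pi.add_apply, h r hr hrS A hA σ hσ, h' r hr hrS A hA σ hσ, add_zero]

theorem UnramCoc.neg {S : Set ℕ} {c : GQb → W} (h : UnramCoc S c) :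
    UnramCoc S (-c) := fun r hr hrS A hA σ hσ => by
  simp only [Pi.neg_apply, h r hr hrS A hA σ hσ, neg_zero]

theorem dcob_unramCoc {S : Set ℕ} (hu : UnramMod W S) (w : W) : UnramCoc S (dcob w) :=
  fun r hr hrS A hA σ hσ => by
    simp only [dcob_apply, hu r hr hrS A hA σ hσ w, sub_self]

/-- `c - c'` is the coboundary of an element of `B`. -/
def CohomIn (B : AddSubgroup W) (c c' : GQb → W) : Prop :=
  ∃ w ∈ B, ∀ σ : GQb, c σ - c' σ = σ • w - w

theorem CohomIn.mono {B B' : AddSubgroup W} (h : B ≤ B') {c c' : GQb → W}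
    (hc : CohomIn B c c') : CohomIn B' c c' := by
  obtain ⟨w, hw, h1⟩ := hc
  exact ⟨w, h hw, h1⟩

variable (W)

/-- The ambient data of the dévissage. -/
structure DevCtx where
  /-- the prime `p` -/
  p : ℕ
  /-- the prime `l'` -/
  l : ℕ
  hl : l.Prime
  /-- the place over `p` -/
  Ap : ValuationSubring Qb
  /-- the place over `l'` -/
  Al : ValuationSubring Qb
  /-- the flat condition -/
  Flat : (GQb → W) → Prop
  smooth : SmoothMod W
  unram : UnramMod W {p, l}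
  flat_add : ∀ c c', Flat c → Flat c' → Flat (c + c')
  flat_neg : ∀ c, Flat c → Flat (-c)
  flat_cob : ∀ w : W, Flat fun σ => σ • w - w

variable {W}

namespace DevCtx

variable (X : DevCtx W)

/-- the inertia invariants `W^{I_p}`. -/
def WI : AddSubgroup W := fixedBy W (X.Ap.inertiaSubgroupIn ℚ)

/-- the invariants `W^Γ`. -/
def WG (_X : DevCtx W) : AddSubgroup W := fixedBy W (⊤ : Subgroup GQb)

theorem mem_WI {w : W} : w ∈ X.WI ↔ ∀ σ ∈ X.Ap.inertiaSubgroupIn ℚ, σ • w = w := Iff.rfl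

theorem mem_WG {w : W} : w ∈ X.WG ↔ ∀ σ : GQb, σ • w = w :=
  ⟨fun h σ => h σ (Subgroup.mem_top σ), fun h σ _ => h σ⟩

theorem WG_le_WI : X.WG ≤ X.WI := fun _ hw σ _ => hw σ (Subgroup.mem_top σ)

/-- `c` is a Selmer cocycle with values in `B`, normalised to vanish on `I_p`. -/
structure Sel (B : AddSubgroup W) (c : GQb → W) : Prop where
  coc : IsCoc c
  cts : IsCtsCoc c
  unr : UnramCoc {X.p, X.l} c
  zero_p : ∀ σ ∈ X.Ap.inertiaSubgroupIn ℚ, c σ = 0
  flat : X.Flat c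
  mem : ∀ σ : GQb, c σ ∈ B

variable {X}

theorem Sel.mono {B B' : AddSubgroup W} (h : B ≤ B') {c : GQb → W} (hc : X.Sel B c) :
    X.Sel B' c :=
  ⟨hc.coc, hc.cts, hc.unr, hc.zero_p, hc.flat, fun σ => h (hc.mem σ)⟩

theorem Sel.of_mem {B B' : AddSubgroup W} {c : GQb → W} (hc : X.Sel B' c)
    (h : ∀ σ, c σ ∈ B) : X.Sel B c :=
  ⟨hc.coc, hc.cts, hc.unr, hc.zero_p, hc.flat, h⟩

theorem Sel.add {B : AddSubgroup W} {c c' : GQb → W} (hc : X.Sel B c) (hc' : X.Sel B c') :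
    X.Sel B (c + c') :=
  ⟨hc.coc.add hc'.coc, hc.cts.add hc'.cts, hc.unr.add hc'.unr,
    fun σ hσ => by simp only [Pi.add_apply, hc.zero_p σ hσ, hc'.zero_p σ hσ, add_zero],
    X.flat_add c c' hc.flat hc'.flat, fun σ => B.add_mem (hc.mem σ) (hc'.mem σ)⟩

theorem Sel.neg {B : AddSubgroup W} {c : GQb → W} (hc : X.Sel B c) : X.Sel B (-c) :=
  ⟨hc.coc.neg, hc.cts.neg, hc.unr.neg,
    fun σ hσ => by simp only [Pi.neg_apply, hc.zero_p σ hσ, neg_zero],
    X.flat_neg c hc.flat, fun σ => B.neg_mem (hc.mem σ)⟩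

theorem Sel.sub {B : AddSubgroup W} {c c' : GQb → W} (hc : X.Sel B c) (hc' : X.Sel B c') :
    X.Sel B (c - c') := by
  rw [sub_eq_add_neg]
  exact hc.add hc'.neg

/-- the coboundary of an `I_p`-invariant element is a Selmer cocycle. -/
theorem sel_dcob {B : AddSubgroup W} {w : W} (hw : w ∈ X.WI) (h : ∀ σ, dcob w σ ∈ B) :
    X.Sel B (dcob w) :=
  ⟨dcob_isCoc w, dcob_isCtsCoc X.smooth w, dcob_unramCoc X.unram w,
    fun σ hσ => by simp only [dcob_apply, hw σ hσ, sub_self], X.flat_cob w, h⟩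

variable (X)

/-- The bound propagated by the dévissage. -/
def Bound (B : AddSubgroup W) (a : ℕ) : Prop :=
  ∀ (J : Type) [Finite J] (c : J → GQb → W), (∀ j, X.Sel B (c j)) →
    (∀ j j', j ≠ j' → ¬ CohomIn B (c j) (c j')) →
    Nat.card J * X.l ^ a * Nat.card ↥(B ⊓ X.WI) ≤ Nat.card ↥(B ⊓ X.WG) * Nat.card ↥B

/-- base case. -/
theorem bound_bot : X.Bound ⊥ 0 := by
  intro J _ c hc hne
  have hsub : Subsingleton J := by
    refine ⟨fun j j' => ?_⟩
    by_contra hjj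
    apply hne j j' hjj
    refine ⟨0, AddSubgroup.zero_mem _, fun σ => ?_⟩
    have h1 : c j σ = 0 := (AddSubgroup.mem_bot).1 ((hc j).mem σ)
    have h2 : c j' σ = 0 := (AddSubgroup.mem_bot).1 ((hc j').mem σ)
    rw [h1, h2, smul_zero, sub_self]
  have h1 : Nat.card J ≤ 1 := Finite.card_le_one_iff_subsingleton.2 hsub
  have h2 : Nat.card ↥((⊥ : AddSubgroup W) ⊓ X.WI) = 1 := by
    rw [bot_inf_eq]; exact AddSubgroup.card_bot
  have h3 : Nat.card ↥((⊥ : AddSubgroup W) ⊓ X.WG) = 1 := by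
    rw [bot_inf_eq]; exact AddSubgroup.card_bot
  have h4 : Nat.card ↥(⊥ : AddSubgroup W) = 1 := AddSubgroup.card_bot
  rw [h2, h3, h4, pow_zero]
  simpa using h1

variable {X}

/-- **EXT1**. -/
theorem ext_one [Finite W] {F F' : AddSubgroup W} (hle : F ≤ F') {a : ℕ} (hB : X.Bound F a)
    (J : Type) [Finite J] (c : J → GQb → W) (hc : ∀ j, X.Sel F (c j))
    (hne : ∀ j j', j ≠ j' → ¬ CohomIn F' (c j) (c j')) :
    Nat.card J * X.l ^ a * Nat.card ↥(F ⊓ X.WI) ≤ Nat.card ↥(F' ⊓ X.WG) * Nat.card ↥F := by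
  have h1 := hB J c hc (fun j j' hjj h => hne j j' hjj (h.mono hle))
  exact h1.trans (Nat.mul_le_mul_right _ (pi_card_inf_le hle X.WG))

/-- **EXTl**: if `F' ∩ W^{I_p} ⊄ F` (and `Γ` acts trivially on the new element modulo `F`),
the bound gains a factor `l'`. -/
theorem ext_l [Finite W] {F F' : AddSubgroup W} (hle : F ≤ F') (hidx : F.relIndex F' = X.l)
    {a : ℕ} (hB : X.Bound F a) {w₀ : W} (hw₀ : w₀ ∈ F') (hw₀I : w₀ ∈ X.WI) (hw₀F : w₀ ∉ F)
    (htriv : ∀ σ : GQb, σ • w₀ - w₀ ∈ F)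
    (J : Type) [Finite J] (c : J → GQb → W) (hc : ∀ j, X.Sel F (c j))
    (hne : ∀ j j', j ≠ j' → ¬ CohomIn F' (c j) (c j')) :
    Nat.card J * X.l * X.l ^ a * Nat.card ↥(F ⊓ X.WI) ≤
      Nat.card ↥(F' ⊓ X.WG) * Nat.card ↥F := by
  by_cases hfix : ∃ v, v ∈ F' ∧ v ∈ X.WG ∧ v ∉ F
  · obtain ⟨v, hv, hvG, hvF⟩ := hfix
    have h1 := hB J c hc (fun j j' hjj h => hne j j' hjj (h.mono hle))
    have h2 : Nat.card ↥(F' ⊓ X.WG) = X.l * Nat.card ↥(F ⊓ X.WG) :=
      pi_card_inf X.hl hle hidx X.WG hv hvG hvF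
    rw [h2]
    calc Nat.card J * X.l * X.l ^ a * Nat.card ↥(F ⊓ X.WI)
        = X.l * (Nat.card J * X.l ^ a * Nat.card ↥(F ⊓ X.WI)) := by ring
      _ ≤ X.l * (Nat.card ↥(F ⊓ X.WG) * Nat.card ↥F) := Nat.mul_le_mul_left _ h1
      _ = X.l * Nat.card ↥(F ⊓ X.WG) * Nat.card ↥F := by ring
  · -- extend the family by the coboundaries of `k • w₀`
    have hfix' : ∀ v, v ∈ F' → v ∈ X.WG → v ∈ F := fun v hv hvG => by
      by_contra hvF
      exact hfix ⟨v, hv, hvG, hvF⟩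
    have hkI : ∀ k : ℕ, k • w₀ ∈ X.WI := fun k => X.WI.nsmul_mem hw₀I k
    have hkF : ∀ (k : ℕ) (σ : GQb), dcob (k • w₀) σ ∈ F := fun k σ => by
      rw [dcob_nsmul]
      exact F.nsmul_mem (htriv σ) k
    let c' : J × Fin X.l → GQb → W := fun x => c x.1 + dcob ((x.2 : ℕ) • w₀)
    have hc' : ∀ x, X.Sel F (c' x) := fun x =>
      (hc x.1).add (sel_dcob (hkI x.2) (hkF x.2))
    have hne' : ∀ x x', x ≠ x' → ¬ CohomIn F (c' x) (c' x') := by
      rintro ⟨j, k⟩ ⟨j', k'⟩ hxx ⟨w, hw, h⟩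
      have hkey : ∀ σ : GQb, c j σ - c j' σ =
          σ • (w + ((k' : ℕ) • w₀ - (k : ℕ) • w₀)) - (w + ((k' : ℕ) • w₀ - (k : ℕ) • w₀)) := by
        intro σ
        have h1 := h σ
        simp only [c', Pi.add_apply, dcob_apply] at h1
        have h2 : c j σ - c j' σ = (σ • w - w) + (σ • ((k' : ℕ) • w₀) - (k' : ℕ) • w₀)
            - (σ • ((k : ℕ) • w₀) - (k : ℕ) • w₀) := by
          rw [← h1]; abel
        rw [h2, smul_add, smul_sub]
        abel
      have hmem : w + ((k' : ℕ) • w₀ - (k : ℕ) • w₀) ∈ F' :=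
        F'.add_mem (hle hw) (F'.sub_mem (F'.nsmul_mem hw₀ _) (F'.nsmul_mem hw₀ _))
      have hjj : j = j' := by
        by_contra hjj
        exact hne j j' hjj ⟨_, hmem, hkey⟩
      subst hjj
      have hG : w + ((k' : ℕ) • w₀ - (k : ℕ) • w₀) ∈ X.WG := by
        rw [mem_WG]
        intro σ
        have := hkey σ
        rw [sub_self] at this
        exact (sub_eq_zero.1 this.symm)
      have hF := hfix' _ hmem hG
      have hF2 : (((k' : ℕ) : ℤ) - ((k : ℕ) : ℤ)) • w₀ ∈ F := by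
        have : (((k' : ℕ) : ℤ) - ((k : ℕ) : ℤ)) • w₀ =
            (w + ((k' : ℕ) • w₀ - (k : ℕ) • w₀)) - w := by
          rw [sub_smul, natCast_zsmul, natCast_zsmul]; abel
        rw [this]
        exact F.sub_mem hF hw
      rw [pi_zsmul_mem_iff X.hl hidx hw₀ hw₀F] at hF2
      have hk1 := k.2
      have hk2 := k'.2
      have hkk : (k : ℕ) = (k' : ℕ) := by
        obtain ⟨t, ht⟩ := hF2
        have : t = 0 := by
          by_contra ht0
          have : (1 : ℤ) ≤ |t| := Int.one_le_abs ht0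
          have h4 : |((k' : ℕ) : ℤ) - ((k : ℕ) : ℤ)| = (X.l : ℤ) * |t| := by
            rw [ht, abs_mul, Nat.abs_cast]
          have h5 : |((k' : ℕ) : ℤ) - ((k : ℕ) : ℤ)| < (X.l : ℤ) := by
            rw [abs_lt]
            constructor <;> omega
          nlinarith
        rw [this, mul_zero] at ht
        omega
      exact hxx (Prod.ext rfl (Fin.ext hkk))
    have h1 := hB (J × Fin X.l) c' hc' hne'
    rw [Nat.card_prod, Nat.card_fin] at h1
    exact h1.trans (Nat.mul_le_mul_right _ (pi_card_inf_le hle X.WG))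

end DevCtx

end

end Fermat.Agent.EDesc
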