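import Fermat.Agent.E.Desc.Dev.Sel

/-!
# E' / Desc / Dev / StepEt : the step of the dévissage over a piece of type `et`
(seat DESC-DEV, helper90)

`F ≤ F'` of index `l'` with trivial action on `F' / F`.  By `PcsEt` (Minkowski) every Selmer
cocycle with values in `F'` has values in `F`; hence `Bound F a → Bound F' (a + 1)`.
-/

set_option autoImplicit false
set_option linter.unusedSectionVars false
set_option linter.style.haveILetI false

noncomputable section

namespace Fermat.Agent.EDesc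

local notation "Qb" => AlgebraicClosure ℚ
local notation "GQb" => (AlgebraicClosure ℚ ≃ₐ[ℚ] AlgebraicClosure ℚ)

namespace DevCtx

variable {W : Type*} [AddCommGroup W] [DistribMulAction GQb W] {X : DevCtx W}

/-- the homomorphism `G_ℚ → F' / F` defined by a cocycle with values in `F'`, when the action
on `F' / F` is trivial. -/
def etHom {F F' : AddSubgroup W} (htriv : ∀ (σ : GQb) (w : W), w ∈ F' → σ • w - w ∈ F)
    {c : GQb → W} (hcoc : IsCoc c) (hmem : ∀ σ, c σ ∈ F') :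
    GQb →* Multiplicative (↥F' ⧸ F.addSubgroupOf F') where
  toFun σ := Multiplicative.ofAdd (QuotientAddGroup.mk (⟨c σ, hmem σ⟩ : ↥F'))
  map_one' := by
    have h : (⟨c 1, hmem 1⟩ : ↥F') = 0 := Subtype.ext hcoc.map_one
    rw [h]
    rfl
  map_mul' σ τ := by
    rw [← ofAdd_add, ← QuotientAddGroup.mk_add]
    congr 1
    rw [QuotientAddGroup.eq]
    show -c (σ * τ) + (c σ + c τ) ∈ F
    rw [hcoc σ τ]
    have h1 := htriv σ (c τ) (hmem τ)
    have h2 : -(c σ + σ • c τ) + (c σ + c τ) = -(σ • c τ - c τ) := by abel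
    rw [h2]
    exact F.neg_mem h1

theorem mem_ker_etHom {F F' : AddSubgroup W}
    (htriv : ∀ (σ : GQb) (w : W), w ∈ F' → σ • w - w ∈ F)
    {c : GQb → W} (hcoc : IsCoc c) (hmem : ∀ σ, c σ ∈ F') (σ : GQb) :
    σ ∈ (etHom htriv hcoc hmem).ker ↔ c σ ∈ F := by
  rw [MonoidHom.mem_ker]
  show Multiplicative.ofAdd (QuotientAddGroup.mk (⟨c σ, hmem σ⟩ : ↥F')) = 1 ↔ _
  rw [← ofAdd_zero, Multiplicative.ofAdd.injective.eq_iff, QuotientAddGroup.eq_zero_iff]
  rfl

/-- **a Selmer cocycle with values in `F'` has values in `F`** (piece of type `et`). -/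
theorem sel_mem_of_et (hEt : PcsEt X.p X.l X.Ap X.Al) {F F' : AddSubgroup W}
    (hidx : F.relIndex F' = X.l)
    (htriv : ∀ (σ : GQb) (w : W), w ∈ F' → σ • w - w ∈ F)
    (hflat : ∀ c : GQb → W, IsCoc c → X.Flat c → (∀ σ, c σ ∈ F') →
      ∀ σ ∈ X.Al.inertiaSubgroupIn ℚ, c σ ∈ F)
    {c : GQb → W} (hc : X.Sel F' c) (σ : GQb) : c σ ∈ F := by
  set φ := etHom htriv hc.coc hc.mem with hφ
  have hker : ∀ τ, τ ∈ φ.ker ↔ c τ ∈ F := mem_ker_etHom htriv hc.coc hc.mem
  have hcard : Nat.card (↥F' ⧸ F.addSubgroupOf F') = X.l := hidx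
  have htop : φ.ker = ⊤ := by
    refine hEt φ.ker inferInstance ?_ ?_ ?_ ?_ ?_ ?_
    · obtain ⟨E, hE, h⟩ := hc.cts
      refine ⟨E, hE, fun τ hτ => ?_⟩
      rw [hker]
      have := h 1 τ hτ
      rw [one_mul, hc.coc.map_one] at this
      rw [this]
      exact F.zero_mem
    · intro τ
      rw [MonoidHom.mem_ker, map_pow]
      have h1 : (X.l) • (Multiplicative.toAdd (φ τ)) = 0 := by
        rw [← hcard]; exact card_nsmul_eq_zero'
      have h2 : Multiplicative.toAdd ((φ τ) ^ X.l) = 0 := by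
        rw [toAdd_pow]; exact h1
      exact Multiplicative.toAdd.injective h2
    · intro τ τ'
      rw [MonoidHom.mem_ker]
      simp only [map_mul, map_inv]
      rw [mul_comm (φ τ) (φ τ'), mul_assoc, mul_assoc, mul_inv_cancel_left, mul_inv_cancel]
    · intro r hr hrS A hA τ hτ
      rw [hker, hc.unr r hr hrS A hA τ hτ]
      exact F.zero_mem
    · intro τ hτ
      rw [hker, hc.zero_p τ hτ]
      exact F.zero_mem
    · intro τ hτ
      rw [hker]
      exact hflat c hc.coc hc.flat hc.mem τ hτ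
  rw [← hker, htop]
  exact Subgroup.mem_top σ

/-- **the `et` step**. -/
theorem bound_step_et [Finite W] (hEt : PcsEt X.p X.l X.Ap X.Al) {F F' : AddSubgroup W}
    (hle : F ≤ F') (hidx : F.relIndex F' = X.l)
    (htriv : ∀ (σ : GQb) (w : W), w ∈ F' → σ • w - w ∈ F)
    (hflat : ∀ c : GQb → W, IsCoc c → X.Flat c → (∀ σ, c σ ∈ F') →
      ∀ σ ∈ X.Al.inertiaSubgroupIn ℚ, c σ ∈ F)
    {a : ℕ} (hB : X.Bound F a) : X.Bound F' (a + 1) := by
  intro J _ c hc hne
  have hcF : ∀ j, X.Sel F (c j) := fun j =>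
    (hc j).of_mem (sel_mem_of_et hEt hidx htriv hflat (hc j))
  have hN : Nat.card ↥F' = X.l * Nat.card ↥F := pi_card X.hl hle hidx
  by_cases hE : ∃ w₀, w₀ ∈ F' ∧ w₀ ∈ X.WI ∧ w₀ ∉ F
  · obtain ⟨w₀, hw₀, hw₀I, hw₀F⟩ := hE
    have hA : Nat.card ↥(F' ⊓ X.WI) = X.l * Nat.card ↥(F ⊓ X.WI) :=
      pi_card_inf X.hl hle hidx X.WI hw₀ hw₀I hw₀F
    have h1 := ext_l hle hidx hB hw₀ hw₀I hw₀F (fun σ => htriv σ w₀ hw₀) J c hcF hne
    rw [hA, hN]
    calc Nat.card J * X.l ^ (a + 1) * (X.l * Nat.card ↥(F ⊓ X.WI))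
        = X.l * (Nat.card J * X.l * X.l ^ a * Nat.card ↥(F ⊓ X.WI)) := by ring
      _ ≤ X.l * (Nat.card ↥(F' ⊓ X.WG) * Nat.card ↥F) := Nat.mul_le_mul_left _ h1
      _ = Nat.card ↥(F' ⊓ X.WG) * (X.l * Nat.card ↥F) := by ring
  · have hEq : F' ⊓ X.WI = F ⊓ X.WI := by
      apply le_antisymm
      · intro w hw
        refine ⟨?_, hw.2⟩
        by_contra hwF
        exact hE ⟨w, hw.1, hw.2, hwF⟩
      · exact inf_le_inf_right _ hle
    have h1 := ext_one hle hB J c hcF hne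
    rw [hEq, hN]
    calc Nat.card J * X.l ^ (a + 1) * Nat.card ↥(F ⊓ X.WI)
        = X.l * (Nat.card J * X.l ^ a * Nat.card ↥(F ⊓ X.WI)) := by ring
      _ ≤ X.l * (Nat.card ↥(F' ⊓ X.WG) * Nat.card ↥F) := Nat.mul_le_mul_left _ h1
      _ = Nat.card ↥(F' ⊓ X.WG) * (X.l * Nat.card ↥F) := by ring

end DevCtx

end Fermat.Agent.EDesc
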